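import Fermat.Agent.PeriodicFractions.Lagrange
import Fermat.Agent.Subspace.Main
import Mathlib.LinearAlgebra.Matrix.Notation

/-!
# Palindromic continued fractions

If the digits begin with arbitrarily long palindromes then the numerator of the convergent before
the last equals the denominator of the last, so `x` and `x ^ 2` are approximated with the same
denominator so well that, by the subspace theorem, `x` is quadratic or transcendental
(Adamczewski and Bugeaud).
-/

set_option autoImplicit false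

noncomputable section

namespace FA.PalindromicFractions

open Finset Matrix FA.PeriodicFractions FA.Subspace FA.Perfect

/-- The matrix of a digit. -/
def stepMat (x : ℝ) (i : ℕ) : Matrix (Fin 2) (Fin 2) ℤ := !![digit x i, 1; 1, 0]

theorem contin_eq_prod (x : ℝ) (n : ℕ) :
    !![(contin x n).1, (contin x n).2.1; (contin x n).2.2.1, (contin x n).2.2.2] =
      ((List.range n).map (stepMat x)).prod := by
  induction n with
  | zero => simp [contin, Matrix.one_fin_two]
  | succ n ih =>
    rw [List.range_succ, List.map_append, List.prod_append, ← ih]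
    simp [contin, stepMat, mul_comm]

/-- A palindrome makes the continuant matrix symmetric. -/
theorem contin_symm {x : ℝ} {n : ℕ} (h : ∀ i < n, digit x (n - 1 - i) = digit x i) :
    (contin x n).2.1 = (contin x n).2.2.1 := by
  have hT : ((List.range n).map (stepMat x)).prodᵀ = ((List.range n).map (stepMat x)).prod := by
    rw [transpose_list_prod, List.map_map]
    congr 1
    refine List.ext_getElem (by simp) fun i h1 h2 => ?_
    have hi : i < n := by simpa using h2
    rw [List.getElem_reverse]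
    simp only [List.getElem_map, List.getElem_range, List.length_map, List.length_range,
      Function.comp_apply]
    show (stepMat x (n - 1 - i))ᵀ = stepMat x i
    ext a c
    fin_cases a <;> fin_cases c <;> simp [stepMat, h i hi]
  rw [← contin_eq_prod] at hT
  simpa using congrFun (congrFun hT 1) 0

theorem le_contin_den {x : ℝ} (hx : Irrational x) (n : ℕ) : (n : ℤ) ≤ (contin x (n + 1)).2.2.1 := by
  induction n with
  | zero =>
    obtain ⟨p, p', q, q', he, -, -, -, hq⟩ := contin_spec hx 1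
    rw [he]
    exact (hq.resolve_left one_ne_zero).1.le
  | succ n ih =>
    obtain ⟨p, p', q, q', he, -, -, -, hq⟩ := contin_spec hx (n + 1)
    have hq0 := (hq.resolve_left (Nat.succ_ne_zero n)).1
    have hd := one_le_digit hx n
    have hq' : 1 ≤ q' ∨ n = 0 := by
      rcases n with _ | m
      · exact Or.inr rfl
      · obtain ⟨p₀, p₀', q₀, q₀', he₀, -, -, -, hq₀⟩ := contin_spec hx (m + 1)
        rw [contin, he₀] at he
        simp only [Prod.mk.injEq] at he
        exact Or.inl (he.2.2.2 ▸ (hq₀.resolve_left (Nat.succ_ne_zero m)).1)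
    rw [he] at ih
    rw [contin, he]
    simp only at ih ⊢
    have h0 : 0 ≤ q' := by
      obtain ⟨p₁, p₁', q₁, q₁', he₁, -, -, hq₁, -⟩ := contin_spec hx (n + 1)
      rw [he] at he₁
      simp only [Prod.mk.injEq] at he₁
      rw [he₁.2.2.2]
      exact hq₁
    push_cast
    rcases hq' with hq' | rfl
    · nlinarith
    · norm_num
      nlinarith

/-- **Palindromic prefixes**: the number is quadratic or transcendental. -/
theorem quadratic_or_transcendental {x : ℝ} (hx : Irrational x)
    (hpal : ∀ N, ∃ n, N ≤ n ∧ ∀ i < n, digit x (n - 1 - i) = digit x i) :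
    IsQuadraticIrrational x ∨ Transcendental ℚ x := by
  by_contra! hcon
  obtain ⟨hnq, hnt⟩ := hcon
  have halg : IsAlgebraic ℚ x := not_not.1 hnt
  obtain ⟨V, hV, hVx⟩ := finite_subspaces (n := 2) one_le_two !![x ^ 2, 0, -1; x, -1, 0; 1, 0, 0]
    (by simp [det_fin_three]) (fun a c => by
      fin_cases a <;> fin_cases c <;>
        simp [halg, halg.pow 2, isAlgebraic_one, isAlgebraic_zero, isAlgebraic_one.neg])
    (δ := 1 / 2) (by norm_num)
  set g : (Fin 3 → ℤ) → ℝ := fun v => (v 0 : ℝ) + v 1 * x + v 2 * x ^ 2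
  have hg : ∀ v, v ≠ 0 → g v ≠ 0 := fun v hv h => by
    by_cases h2 : v 2 = 0
    · simp only [g, h2, Int.cast_zero, zero_mul, add_zero] at h
      by_cases h1 : v 1 = 0
      · simp only [h1, Int.cast_zero, zero_mul, add_zero, Int.cast_eq_zero] at h
        exact hv (funext fun a => by fin_cases a <;> assumption)
      · refine hx.ne_rational (-v 0) (v 1) ?_
        rw [eq_div_iff (Int.cast_ne_zero.2 h1)]
        push_cast
        linarith
    · exact hnq ⟨hx, v 2, v 1, v 0, h2, by simp only [g] at h; linarith⟩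
  set K := |x| + 1 with hK
  have hK1 : 1 ≤ K := le_add_of_nonneg_left (abs_nonneg x)
  set T := (2 : ℝ) + K ^ 3 + ∑ v ∈ V, (|(v 1 : ℝ)| + |(v 2 : ℝ)| * K) / |g v|
  obtain ⟨n, hn, hp⟩ := hpal (⌈T⌉₊ + 2)
  obtain ⟨n, rfl⟩ : ∃ m, n = m + 1 := ⟨n - 1, by omega⟩
  obtain ⟨p, p', q, q', he, hrel, hdet, hq'0, hq⟩ := contin_spec hx (n + 1)
  obtain ⟨hq0, hq'le⟩ := hq.resolve_left (Nat.succ_ne_zero n)
  have hsym := contin_symm hp
  have hden := le_contin_den hx n
  rw [he] at hsym hden
  simp only at hsym hden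
  subst hsym
  -- now the numerator before the last is the last denominator
  set c := cq x (n + 1)
  have hc : 1 < c := one_lt_cq hx n
  set Q := (p' : ℝ) with hQ
  have hQ0 : 0 < Q := by simp only [Q]; exact_mod_cast hq0
  have hTQ : T + 1 ≤ Q := by
    have h1 : ((⌈T⌉₊ + 1 : ℕ) : ℝ) ≤ ((p' : ℤ) : ℝ) := by
      refine le_trans (Nat.cast_le.2 (show ⌈T⌉₊ + 1 ≤ n by omega)) ?_
      exact_mod_cast hden
    push_cast at h1
    linarith [Nat.le_ceil T]
  have hq'R : (0 : ℝ) ≤ q' := by exact_mod_cast hq'0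
  have hden0 : 0 < Q * c + q' := by positivity
  have hdet' : |(p : ℝ) * q' - Q * Q| = 1 := by
    simp only [Q]
    exact_mod_cast hdet
  have e1 : |Q * x - p| ≤ 1 / Q := by
    have h : (Q * x - p) * (Q * c + q') = -((p : ℝ) * q' - Q * Q) := by
      linear_combination Q * hrel
    rw [le_div_iff₀ hQ0, ← hdet', ← abs_neg ((p : ℝ) * q' - Q * Q), ← h, abs_mul,
      abs_of_pos hden0]
    exact mul_le_mul_of_nonneg_left (by nlinarith) (abs_nonneg _)
  have e2 : |x * q' - Q| ≤ 1 / Q := by
    have h : (x * q' - Q) * (Q * c + q') = c * ((p : ℝ) * q' - Q * Q) := by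
      linear_combination (q' : ℝ) * hrel
    rw [le_div_iff₀ hQ0]
    refine le_of_mul_le_mul_right ?_ (zero_lt_one.trans hc)
    calc |x * q' - Q| * Q * c ≤ |x * q' - Q| * (Q * c + q') := by
          rw [mul_assoc]; exact mul_le_mul_of_nonneg_left (by linarith) (abs_nonneg _)
      _ = 1 * c := by
          rw [← abs_of_pos hden0, ← abs_mul, h, abs_mul, hdet', abs_of_pos (by linarith : 0 < c),
            mul_one, one_mul]
  have e3 : |x ^ 2 * q' - p| ≤ K / Q := by
    rw [show x ^ 2 * (q' : ℝ) - p = x * (x * q' - Q) + (Q * x - p) by ring]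
    refine (abs_add_le _ _).trans ?_
    rw [abs_mul, hK, add_div, ← mul_one_div |x|]
    exact add_le_add (mul_le_mul_of_nonneg_left e2 (abs_nonneg x)) e1
  set pt : Fin 3 → ℤ := ![q', p', p]
  have hpt : pt ≠ 0 := fun e => hq0.ne' (by simpa [pt] using congrFun e 1)
  have hX : ‖castVec pt‖ ≤ K * Q := (pi_norm_le_iff_of_nonneg (by positivity)).2 fun a => by
    have hqQ : (q' : ℝ) ≤ Q := by simp only [Q]; exact_mod_cast hq'le
    have hle : Q ≤ K * Q := le_mul_of_one_le_left hQ0.le hK1
    fin_cases a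
    · simpa [castVec, pt, abs_of_nonneg hq'R] using hqQ.trans hle
    · simpa [castVec, pt, ← hQ, abs_of_pos hQ0] using hle
    · have h := abs_sub_abs_le_abs_sub (p : ℝ) (Q * x)
      rw [abs_sub_comm, abs_mul, abs_of_pos hQ0] at h
      have h1 : 1 / Q ≤ Q := by
        rw [div_le_iff₀ hQ0]; nlinarith [show (1 : ℝ) ≤ Q by
          simp only [Q]; exact_mod_cast hq0]
      simp [castVec, pt]
      rw [hK]
      linarith
  have hT3 : K ^ 3 < Q := by
    have h1 : 0 ≤ ∑ v ∈ V, (|(v 1 : ℝ)| + |(v 2 : ℝ)| * K) / |g v| :=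
      sum_nonneg fun v _ => by positivity
    linarith
  obtain ⟨v, hv, hvx⟩ := hVx pt hpt (by
    have hX0 : 0 < ‖castVec pt‖ := norm_pos_iff.2 fun e => hpt (funext fun a => by
      simpa [castVec] using congrFun e a)
    have hprod : |x ^ 2 * q' - p| * (|x * q' - Q| * |(q' : ℝ)|) ≤ K / Q := by
      refine (mul_le_mul e3 ?_ (by positivity) (by positivity)).trans_eq (mul_one _)
      calc |x * q' - Q| * |(q' : ℝ)| ≤ 1 / Q * Q := by
            refine mul_le_mul e2 ?_ (abs_nonneg _) (by positivity)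
            rw [abs_of_nonneg hq'R]
            simp only [Q]; exact_mod_cast hq'le
        _ = 1 := one_div_mul_cancel hQ0.ne'
    simp [Fin.prod_univ_succ, Fin.sum_univ_succ, pt, ← hQ, ← sub_eq_add_neg]
    refine hprod.trans_lt ?_
    rw [Real.rpow_neg hX0.le, ← one_div (_ ^ _), div_lt_div_iff₀ hQ0 (by positivity), one_mul]
    refine (mul_le_mul_of_nonneg_left (Real.rpow_le_rpow hX0.le hX (by norm_num))
      (by positivity)).trans_lt ?_
    rw [show ((2 : ℝ)⁻¹) = 1 / 2 by norm_num, ← Real.sqrt_eq_rpow, ← lt_div_iff₀' (by positivity),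
      Real.sqrt_lt' (by positivity), div_pow, lt_div_iff₀ (by positivity), sq Q]
    calc K * Q * K ^ 2 = K ^ 3 * Q := by ring
      _ < Q * Q := mul_lt_mul_of_pos_right hT3 hQ0)
  have hv0 := hg v (hV v hv)
  have hR : (v 0 : ℝ) * q' + v 1 * Q + v 2 * p = 0 := by
    simp [dotProduct, Fin.sum_univ_succ, pt, ← add_assoc] at hvx
    simp only [Q]
    exact_mod_cast hvx
  have hbound : |g v| * (q' : ℝ) ≤ (|(v 1 : ℝ)| + |(v 2 : ℝ)| * K) / Q := by
    rw [← abs_of_nonneg hq'R, ← abs_mul, show g v * (q' : ℝ) =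
      v 1 * (x * q' - Q) + v 2 * (x ^ 2 * q' - p) by simp only [g]; linear_combination hR]
    refine (abs_add_le _ _).trans ?_
    rw [abs_mul, abs_mul, add_div, mul_div_assoc, ← mul_one_div |(v 1 : ℝ)|]
    exact add_le_add (mul_le_mul_of_nonneg_left e2 (abs_nonneg _))
      (mul_le_mul_of_nonneg_left e3 (abs_nonneg _))
  have hq'1 : (1 : ℝ) ≤ q' := by
    obtain ⟨m, rfl⟩ : ∃ m, n = m + 1 := ⟨n - 1, by omega⟩
    obtain ⟨p₀, p₀', q₀, q₀', he₀, -, -, -, hq₀⟩ := contin_spec hx (m + 1)
    rw [contin, he₀] at he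
    simp only [Prod.mk.injEq] at he
    rw [← he.2.2.2]
    exact_mod_cast (hq₀.resolve_left (Nat.succ_ne_zero m)).1
  have h := (le_mul_of_one_le_right (abs_nonneg _) hq'1).trans hbound
  rw [le_div_iff₀ hQ0, ← le_div_iff₀' (abs_pos.2 hv0)] at h
  have hs : (|(v 1 : ℝ)| + |(v 2 : ℝ)| * K) / |g v| ≤
      ∑ v ∈ V, (|(v 1 : ℝ)| + |(v 2 : ℝ)| * K) / |g v| :=
    single_le_sum (f := fun v => (|(v 1 : ℝ)| + |(v 2 : ℝ)| * K) / |g v|)
      (fun v _ => by positivity) hv
  have : 0 ≤ K ^ 3 := by positivity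
  linarith

/-- Palindromes after the integral part. -/
theorem quadratic_or_transcendental_tail {x : ℝ} (hx : Irrational x)
    (hpal : ∀ N, ∃ n, N ≤ n ∧ ∀ i < n, digit x (n - i) = digit x (i + 1)) :
    IsQuadraticIrrational x ∨ Transcendental ℚ x := by
  have hy := irrational_cq hx 1
  have hfr := (fract_cq_pos hx 0).ne'
  have hxy : x = (⌊x⌋ : ℝ) + 1 / cq x 1 := cq_eq x 0
  rcases quadratic_or_transcendental hy (fun N => by
    obtain ⟨n, hn, h⟩ := hpal N
    refine ⟨n, hn, fun i hi => ?_⟩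
    show ⌊cq (cq x 1) (n - 1 - i)⌋ = ⌊cq (cq x 1) i⌋
    rw [← cq_add, ← cq_add, add_comm 1 i, show 1 + (n - 1 - i) = n - i by omega]
    exact h i hi) with ⟨-, a, b, c, ha, h⟩ | h
  · refine Or.inl ⟨hx, ?_⟩
    have hc : c ≠ 0 := fun e => by
      rw [e, Int.cast_zero, add_zero, sq, ← mul_assoc, ← add_mul] at h
      refine hy.ne_rational (-b) a ?_
      rw [eq_div_iff (Int.cast_ne_zero.2 ha)]
      push_cast
      linarith [(mul_eq_zero.1 h).resolve_right (zero_lt_one.trans (one_lt_cq hx 0)).ne']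
    refine ⟨c, b - 2 * c * ⌊x⌋, c * ⌊x⌋ ^ 2 - b * ⌊x⌋ + a, hc, ?_⟩
    have h0 : cq x 1 ≠ 0 := (zero_lt_one.trans (one_lt_cq hx 0)).ne'
    have he : x - (⌊x⌋ : ℝ) = 1 / cq x 1 := by linarith
    push_cast
    rw [show (c : ℝ) * x ^ 2 + (b - 2 * c * ⌊x⌋) * x + (c * (⌊x⌋ : ℝ) ^ 2 - b * ⌊x⌋ + a) =
      c * (x - ⌊x⌋) ^ 2 + b * (x - ⌊x⌋) + a by ring, he]
    field_simp
    linear_combination h
  · refine Or.inr fun halg => h ?_
    show IsAlgebraic ℚ ((Int.fract x)⁻¹)
    exact (halg.sub (isAlgebraic_intCast _)).inv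

end FA.PalindromicFractions

end
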